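import Fermat.Agent.FirstInvariant.Count
import Mathlib.NumberTheory.PrimeCounting

/-!
# The average exponent

The densities `δ_d` sum to one, and as `exponent / p = 1 / d + O (p ^ (-1/2))` at first invariant
`d`, the average of `exponent / p` is `∑ δ_d / d` (Freiberg, Kurlberg).
-/

set_option autoImplicit false
set_option linter.style.haveILetI false

noncomputable section

open WeierstrassCurve FA.Frob Finset Filter FA.CyclicRed
open FA.ReducedGroups (FullAt)
open FA.NearlyCyclic (bigSet)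
open scoped WeierstrassCurve.Affine Classical Topology

namespace FA.FirstInvariant

variable (W : WeierstrassCurve ℤ)

/-- `exponent E(𝔽_p) / p`, `0` off the primes. -/
def expRatio (p : ℕ) : ℝ :=
  if h : p.Prime then
    haveI := Fact.mk h
    (AddMonoid.exponent (W.map (Int.castRingHom (ZMod p))).toAffine.Point : ℝ) / p
  else 0

/-- The primes of first invariant `1, …, D`. -/
def innerSet (D N : ℕ) : Finset ℕ := (range D).biUnion fun d => invSet W (d + 1) N

variable {W} (hΔ : W.Δ ≠ 0)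

include hΔ in
theorem innerSet_subset (D N : ℕ) : innerSet W D N ⊆ fullCount W 1 N := fun p hp => by
  obtain ⟨d, -, hd⟩ := mem_biUnion.1 hp
  rw [invSet, mem_filter] at hd
  obtain ⟨c, -, -, -, hiff⟩ := exists_invariant hΔ hd.2.1 hd.2.2.1
  exact mem_filter.2 ⟨hd.1, hd.2.1, hd.2.2.1, (hiff 1 one_pos).2 (one_dvd c)⟩

include hΔ in
theorem sdiff_innerSet_subset (D N : ℕ) :
    fullCount W 1 N \ innerSet W D N ⊆ bigSet W D N := fun p hp => by
  rw [Finset.mem_sdiff, fullCount, mem_filter] at hp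
  obtain ⟨⟨hpI, hpp, hbad, -⟩, hnot⟩ := hp
  obtain ⟨c, hc0, -, hinv, hiff⟩ := exists_invariant hΔ hpp hbad
  refine mem_filter.2 ⟨hpI, hpp, hbad, c, ?_, (hiff c hc0).2 dvd_rfl⟩
  by_contra hcD
  exact hnot (mem_biUnion.2 ⟨c - 1, mem_range.2 (by omega),
    mem_filter.2 ⟨hpI, hpp, hbad, (hinv _).2 (by omega)⟩⟩)

include hΔ in
theorem pairwiseDisjoint_invSet (D N : ℕ) :
    (↑(range D) : Set ℕ).PairwiseDisjoint fun d => invSet W (d + 1) N := fun a _ b _ hab =>
  disjoint_left.2 fun p ha hb => hab (by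
    simp only [invSet, mem_filter] at ha hb
    obtain ⟨c, -, -, hinv, -⟩ := exists_invariant hΔ ha.2.1 ha.2.2.1
    have h1 := (hinv _).1 ha.2.2.2
    have h2 := (hinv _).1 hb.2.2.2
    omega)

include hΔ in
/-- The exponent at first invariant `d`. -/
theorem abs_expRatio_sub_le {d p N : ℕ} (hp : p ∈ invSet W d N) :
    |expRatio W p - 1 / d| ≤ 3 / √(p : ℝ) := by
  rw [invSet, mem_filter] at hp
  obtain ⟨-, hpp, hbad, hF, heq⟩ := hp
  obtain ⟨h3, hgood⟩ := good_of_not_mem hΔ hpp hbad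
  haveI := ratCurve_isElliptic W (l := p) hgood
  haveI : (W.map (Int.castRingHom (ZMod p))).IsElliptic :=
    FA.PointDiv.reductionMod_isElliptic W hgood
  have h := FA.HasseBound.traceOfFrobenius_sq_le (W.map (Int.castRingHom (ZMod p)))
  obtain ⟨a, ha⟩ : ∃ a, a = (W.map (Int.castRingHom (ZMod p))).traceOfFrobenius := ⟨_, rfl⟩
  have hcard : (Nat.card (W.map (Int.castRingHom (ZMod p))).toAffine.Point : ℤ) =
      (p : ℤ) + 1 - a := by
    rw [ha]
    show _ = (p : ℤ) + 1 - ((Nat.card (ZMod p) : ℤ) + 1 - _)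
    rw [Nat.card_zmod, sub_sub_cancel]
    rfl
  rw [← ha] at h
  rw [heq] at hcard
  push_cast at hcard
  obtain ⟨e, he⟩ : ∃ e : ℝ,
      e = (AddMonoid.exponent (W.map (Int.castRingHom (ZMod p))).toAffine.Point : ℝ) := ⟨_, rfl⟩
  have hde : (d : ℝ) * e = p + 1 - a := by
    rw [he]
    exact_mod_cast hcard
  have hd : (1 : ℝ) ≤ d := Nat.one_le_cast.2 (Nat.pos_of_ne_zero fun h0 => by
    rw [h0, zero_mul] at heq
    exact Nat.card_pos.ne' heq)
  have hp3 : (3 : ℝ) ≤ p := by exact_mod_cast h3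
  have hs := Real.mul_self_sqrt (Nat.cast_nonneg (α := ℝ) p)
  have hs1 : 1 ≤ √(p : ℝ) := Real.one_le_sqrt.2 (by linarith)
  have ha2 : |(1 : ℝ) - a| ≤ 3 * √(p : ℝ) := by
    have h' : (a : ℝ) ^ 2 ≤ (2 * √(p : ℝ)) ^ 2 := by
      rw [mul_pow, sq (√(p : ℝ)), hs]
      exact_mod_cast (show a ^ 2 ≤ (2 : ℤ) ^ 2 * p by linarith)
    have := abs_le.1 (abs_le_of_sq_le_sq h' (by positivity))
    rw [abs_le]
    constructor <;> linarith
  rw [expRatio, dif_pos hpp, ← he, div_sub_div _ _ (by positivity) (by positivity), mul_one,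
    abs_div, abs_of_pos (show (0 : ℝ) < p * d by positivity),
    div_le_div_iff₀ (by positivity) (by positivity)]
  rw [show e * d - p = 1 - a by linear_combination hde]
  calc |(1 : ℝ) - a| * √(p : ℝ) ≤ 3 * √(p : ℝ) * √(p : ℝ) :=
        mul_le_mul_of_nonneg_right ha2 (by positivity)
    _ = 3 * p := by rw [mul_assoc, hs]
    _ ≤ _ := by nlinarith

include hΔ in
/-- It never exceeds four. -/
theorem expRatio_mem {p N : ℕ} (hp : p ∈ fullCount W 1 N) :
    0 ≤ expRatio W p ∧ expRatio W p ≤ 4 := by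
  rw [fullCount, mem_filter] at hp
  obtain ⟨hpI, hpp, hbad, -⟩ := hp
  obtain ⟨c, hc0, -, hinv, -⟩ := exists_invariant hΔ hpp hbad
  have h := abs_le.1 (abs_expRatio_sub_le hΔ
    (show p ∈ invSet W c N from mem_filter.2 ⟨hpI, hpp, hbad, (hinv c).2 rfl⟩))
  have h1 : 3 / √(p : ℝ) ≤ 3 := div_le_self (by norm_num)
    (Real.one_le_sqrt.2 (Nat.one_le_cast.2 hpp.one_le))
  have h2 : 1 / (c : ℝ) ≤ 1 := div_le_one_of_le₀ (Nat.one_le_cast.2 hc0) (Nat.cast_nonneg c)
  refine ⟨?_, by linarith [h.2]⟩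
  rw [expRatio, dif_pos hpp]
  exact div_nonneg (Nat.cast_nonneg _) (Nat.cast_nonneg _)

include hΔ in
theorem card_good_le (N : ℕ) : (fullCount W 1 N).card ≤ Nat.primeCounting N ∧
    Nat.primeCounting N ≤ (fullCount W 1 N).card + (badPrimes W).card := by
  rw [← Nat.primesLE_card_eq_primeCounting]
  constructor
  · refine card_le_card fun p hp => ?_
    rw [fullCount, mem_filter, mem_Icc] at hp
    exact Nat.mem_primesLE.2 ⟨hp.1.2, hp.2.1⟩
  · refine (card_le_card fun p hp => ?_).trans (card_union_le _ _)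
    rw [Nat.mem_primesLE] at hp
    rw [mem_union]
    by_cases hbad : p ∈ badPrimes W
    · exact Or.inr hbad
    obtain ⟨c, -, -, -, hiff⟩ := exists_invariant hΔ hp.2 hbad
    exact Or.inl (mem_filter.2 ⟨mem_Icc.2 ⟨hp.2.one_le, hp.1⟩, hp.2, hbad,
      (hiff 1 one_pos).2 (one_dvd c)⟩)

variable [(ratCurve W).IsElliptic] (hGRH : AllFieldsRH)

include hΔ hGRH

omit hΔ hGRH in
theorem degree_one : degree W 1 = 1 := by
  rw [degree_eq]
  haveI : Subsingleton (GL (Fin 2) (ZMod 1)) := Units.val_injective.subsingleton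
  exact Nat.card_unique

theorem tendsto_primeCounting_log :
    Tendsto (fun N : ℕ => (Nat.primeCounting N : ℝ) * Real.log N / N) atTop (𝓝 1) := by
  have h := tendsto_level hΔ hGRH one_pos
  rw [degree_one, Nat.cast_one, div_one] at h
  have hb : Tendsto (fun N : ℕ => ((badPrimes W).card : ℝ) * (Real.log N / N)) atTop (𝓝 0) := by
    have := ((Real.isLittleO_log_id_atTop.tendsto_div_nhds_zero).comp
      tendsto_natCast_atTop_atTop).const_mul ((badPrimes W).card : ℝ)
    simpa [Function.comp_def] using this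
  have hup := h.add hb
  rw [add_zero] at hup
  refine tendsto_of_tendsto_of_tendsto_of_le_of_le h hup (fun N => ?_) fun N => ?_
  · refine div_le_div_of_nonneg_right (mul_le_mul_of_nonneg_right
      (Nat.cast_le.2 (card_good_le hΔ N).1) (Real.log_natCast_nonneg N)) (Nat.cast_nonneg N)
  · have h1 : (Nat.primeCounting N : ℝ) ≤ (fullCount W 1 N).card + (badPrimes W).card := by
      exact_mod_cast (card_good_le hΔ N).2
    rw [← mul_div_assoc, ← add_div, ← add_mul]
    exact div_le_div_of_nonneg_right (mul_le_mul_of_nonneg_right h1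
      (Real.log_natCast_nonneg N)) (Nat.cast_nonneg N)

/-- Normalising by the primes. -/
theorem tendsto_div_primeCounting {f : ℕ → ℝ} {l : ℝ}
    (h : Tendsto (fun N : ℕ => f N * Real.log N / N) atTop (𝓝 l)) :
    Tendsto (fun N : ℕ => f N / Nat.primeCounting N) atTop (𝓝 l) := by
  have h' := h.div (tendsto_primeCounting_log hΔ hGRH) one_ne_zero
  rw [div_one] at h'
  refine h'.congr' ?_
  filter_upwards [eventually_ge_atTop 2] with N hN
  have hN0 : (N : ℝ) ≠ 0 := Nat.cast_ne_zero.2 (by omega)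
  have hL : Real.log (N : ℝ) ≠ 0 := (Real.log_pos (by exact_mod_cast hN)).ne'
  simp only [Pi.div_apply]
  rw [div_div_div_cancel_right₀ hN0, mul_div_mul_right _ _ hL]

theorem tendsto_innerSet (D : ℕ) :
    Tendsto (fun N : ℕ => ((innerSet W D N).card : ℝ) / Nat.primeCounting N) atTop
      (𝓝 (∑ d ∈ range D, invDensity W (d + 1))) := by
  refine (tendsto_finsetSum (range D) fun d _ =>
    tendsto_div_primeCounting hΔ hGRH (tendsto_invSet hΔ hGRH d.succ_pos)).congr fun N => ?_
  rw [innerSet, card_biUnion (pairwiseDisjoint_invSet hΔ D N), Nat.cast_sum, sum_div]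

/-- A bound for the first invariant leaving out little. -/
theorem exists_bigSet_share {ε : ℝ} (hε : 0 < ε) : ∃ D0 : ℕ, ∀ D ≥ D0, ∀ᶠ N : ℕ in atTop,
    ((bigSet W D N).card : ℝ) ≤ ε * Nat.primeCounting N := by
  obtain ⟨D0, h⟩ := FA.NearlyCyclic.exists_bigSet_le hΔ hGRH (show (0 : ℝ) < ε / 2 by linarith)
  refine ⟨D0, fun D hD => ?_⟩
  filter_upwards [h, (tendsto_primeCounting_log hΔ hGRH).eventually
    (eventually_ge_nhds (show (1 / 2 : ℝ) < 1 by norm_num)), eventually_ge_atTop 2] with N h1 h2 hN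
  have hl : (0 : ℝ) < Real.log N / N :=
    div_pos (Real.log_pos (by exact_mod_cast hN)) (Nat.cast_pos.2 (by omega))
  have h3 : ((bigSet W D N).card : ℝ) ≤ (bigSet W D0 N).card := by
    refine Nat.cast_le.2 (card_le_card fun p hp => ?_)
    rw [bigSet, mem_filter] at hp ⊢
    obtain ⟨hpI, hpp, hbad, d, hd, hf⟩ := hp
    exact ⟨hpI, hpp, hbad, d, by omega, hf⟩
  rw [mul_div_assoc] at h1 h2
  refine h3.trans (le_of_mul_le_mul_right ?_ hl)
  rw [mul_assoc]
  nlinarith

/-- **The densities sum to one.** -/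
theorem hasSum_invDensity : HasSum (fun d : ℕ => invDensity W (d + 1)) 1 := by
  rw [hasSum_iff_tendsto_nat_of_nonneg fun d => invDensity_nonneg hΔ hGRH d.succ_pos,
    Metric.tendsto_nhds]
  intro ε hε
  obtain ⟨D0, hD0⟩ := exists_bigSet_share hΔ hGRH (show (0 : ℝ) < ε / 2 by linarith)
  filter_upwards [eventually_ge_atTop D0] with D hD
  have hlim := tendsto_innerSet hΔ hGRH D
  have hup : ∑ d ∈ range D, invDensity W (d + 1) ≤ 1 := le_of_tendsto' hlim fun N =>
    div_le_one_of_le₀ (Nat.cast_le.2 ((card_le_card (innerSet_subset hΔ D N)).trans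
      (card_good_le hΔ N).1)) (Nat.cast_nonneg _)
  have hgood : Tendsto (fun N : ℕ => ((fullCount W 1 N).card : ℝ) / Nat.primeCounting N) atTop
      (𝓝 1) := by
    have h := tendsto_level hΔ hGRH one_pos
    rw [degree_one, Nat.cast_one, div_one] at h
    exact tendsto_div_primeCounting hΔ hGRH h
  have hlow : (1 : ℝ) ≤ (∑ d ∈ range D, invDensity W (d + 1)) + ε / 2 := by
    refine le_of_tendsto_of_tendsto hgood (hlim.add_const (ε / 2)) ?_
    filter_upwards [hD0 D hD, eventually_ge_atTop 2] with N hN hN2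
    have hπ : (0 : ℝ) < Nat.primeCounting N := by
      rw [Nat.cast_pos, ← Nat.primesLE_card_eq_primeCounting]
      exact card_pos.2 ⟨2, Nat.mem_primesLE.2 ⟨hN2, Nat.prime_two⟩⟩
    rw [← sub_le_iff_le_add', ← sub_div, div_le_iff₀ hπ]
    refine le_trans ?_ hN
    have : ((fullCount W 1 N).card : ℝ) ≤ (innerSet W D N).card + (bigSet W D N).card := by
      exact_mod_cast (card_le_card fun p hp => by
        rw [mem_union]
        by_cases h : p ∈ innerSet W D N
        exacts [Or.inl h, Or.inr (sdiff_innerSet_subset hΔ D N (Finset.mem_sdiff.2 ⟨hp, h⟩))]).trans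
        (card_union_le _ _)
    linarith
  rw [Real.dist_eq, abs_lt]
  constructor <;> linarith

theorem summable_average : Summable fun d : ℕ => invDensity W (d + 1) / (d + 1 : ℕ) :=
  Summable.of_nonneg_of_le
    (fun d => div_nonneg (invDensity_nonneg hΔ hGRH d.succ_pos) (Nat.cast_nonneg _))
    (fun d => div_le_self (invDensity_nonneg hΔ hGRH d.succ_pos)
      (Nat.one_le_cast.2 d.succ_pos)) (hasSum_invDensity hΔ hGRH).summable

theorem average_pos : 0 < ∑' d : ℕ, invDensity W (d + 1) / (d + 1 : ℕ) := by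
  obtain ⟨d, hd⟩ : ∃ d : ℕ, invDensity W (d + 1) ≠ 0 := by
    by_contra h
    push Not at h
    exact one_ne_zero ((hasSum_invDensity hΔ hGRH).unique (by simp only [h]; exact hasSum_zero))
  exact (summable_average hΔ hGRH).tsum_pos
    (fun n => div_nonneg (invDensity_nonneg hΔ hGRH n.succ_pos) (Nat.cast_nonneg _)) d
    (div_pos (lt_of_le_of_ne (invDensity_nonneg hΔ hGRH d.succ_pos) hd.symm)
      (Nat.cast_pos.2 d.succ_pos))

/-- **The average exponent.** -/
theorem tendsto_average :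
    Tendsto (fun N : ℕ => (∑ p ∈ fullCount W 1 N, expRatio W p) / Nat.primeCounting N) atTop
      (𝓝 (∑' d : ℕ, invDensity W (d + 1) / (d + 1 : ℕ))) := by
  rw [Metric.tendsto_nhds]
  intro ε hε
  obtain ⟨D0, hD0⟩ := exists_bigSet_share hΔ hGRH (show (0 : ℝ) < ε / 32 by linarith)
  obtain ⟨D, hD, hpart⟩ := ((eventually_ge_atTop D0).and (Metric.tendsto_nhds.1
    (summable_average hΔ hGRH).hasSum.tendsto_sum_nat (ε / 8) (by linarith))).exists
  obtain ⟨p0, hp0⟩ := eventually_atTop.1 (((Real.tendsto_sqrt_atTop.comp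
    tendsto_natCast_atTop_atTop).const_div_atTop 3).eventually
    (eventually_le_nhds (show (0 : ℝ) < ε / 8 by linarith)))
  have hlim : Tendsto (fun N : ℕ => ∑ d ∈ range D,
      ((invSet W (d + 1) N).card : ℝ) / Nat.primeCounting N * (1 / ((d + 1 : ℕ) : ℝ))) atTop
      (𝓝 (∑ d ∈ range D, invDensity W (d + 1) / (d + 1 : ℕ))) := by
    refine tendsto_finsetSum _ fun d _ => ?_
    simpa [div_eq_mul_inv] using (tendsto_div_primeCounting hΔ hGRH
      (tendsto_invSet hΔ hGRH d.succ_pos)).mul_const (1 / ((d + 1 : ℕ) : ℝ))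
  filter_upwards [hD0 D hD, Metric.tendsto_nhds.1 hlim (ε / 8) (by linarith),
    (Nat.tendsto_primeCounting.eventually_ge_atTop (⌈8 * 4 * (p0 : ℝ) / ε⌉₊ + 1))]
    with N h1 h2 h3
  have hπ : (0 : ℝ) < Nat.primeCounting N := Nat.cast_pos.2 (by omega)
  have hp0π : 4 * (p0 : ℝ) ≤ ε / 8 * Nat.primeCounting N := by
    have h5 : 8 * 4 * (p0 : ℝ) / ε ≤ Nat.primeCounting N :=
      (Nat.le_ceil _).trans (Nat.cast_le.2 (by omega))
    rw [div_le_iff₀ hε] at h5
    linarith
  obtain ⟨M, hMdef⟩ : ∃ M, M = ∑ d ∈ range D,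
      ((invSet W (d + 1) N).card : ℝ) * (1 / ((d + 1 : ℕ) : ℝ)) := ⟨_, rfl⟩
  have hM : |(∑ p ∈ fullCount W 1 N, expRatio W p) - M| ≤
      ε / 2 * Nat.primeCounting N := by
    have hin : |(∑ p ∈ innerSet W D N, expRatio W p) - M| ≤
        ε / 8 * Nat.primeCounting N + 4 * p0 := by
      rw [hMdef, innerSet, sum_biUnion (pairwiseDisjoint_invSet hΔ D N), ← sum_sub_distrib]
      refine (abs_sum_le_sum_abs _ _).trans ((sum_le_sum (g := fun d => ∑ p ∈ invSet W (d + 1) N,
        (ε / 8 + if p < p0 then (4 : ℝ) else 0)) fun d _ => ?_).trans ?_)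
      · rw [← nsmul_eq_mul, ← sum_const, ← sum_sub_distrib]
        refine (abs_sum_le_sum_abs _ _).trans (sum_le_sum fun p hp => ?_)
        have h := abs_expRatio_sub_le hΔ hp
        split_ifs with hps
        · refine h.trans ((div_le_self (by norm_num) (Real.one_le_sqrt.2
            (Nat.one_le_cast.2 (mem_Icc.1 (mem_filter.1 hp).1).1))).trans (by linarith))
        · rw [add_zero]
          exact h.trans (hp0 p (not_lt.1 hps))
      · rw [← sum_biUnion (pairwiseDisjoint_invSet hΔ D N), ← innerSet, sum_add_distrib,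
          sum_const, nsmul_eq_mul, mul_comm, ← sum_filter, sum_const, nsmul_eq_mul]
        refine add_le_add (mul_le_mul_of_nonneg_left (Nat.cast_le.2
          ((card_le_card (innerSet_subset hΔ D N)).trans (card_good_le hΔ N).1)) (by linarith)) ?_
        rw [mul_comm]
        refine mul_le_mul_of_nonneg_left (Nat.cast_le.2 ((card_le_card
          (t := range p0) fun p hp => mem_range.2 (mem_filter.1 hp).2).trans
          (card_range p0).le)) (by norm_num)
    have hout : |∑ p ∈ fullCount W 1 N \ innerSet W D N, expRatio W p| ≤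
        ε / 8 * Nat.primeCounting N := by
      rw [abs_of_nonneg (sum_nonneg fun p hp => (expRatio_mem hΔ (Finset.mem_sdiff.1 hp).1).1)]
      refine (sum_le_card_nsmul _ _ 4 fun p hp =>
        (expRatio_mem hΔ (Finset.mem_sdiff.1 hp).1).2).trans ?_
      rw [nsmul_eq_mul]
      have : ((fullCount W 1 N \ innerSet W D N).card : ℝ) ≤ (bigSet W D N).card :=
        Nat.cast_le.2 (card_le_card (sdiff_innerSet_subset hΔ D N))
      linarith
    rw [← sum_sdiff (innerSet_subset hΔ D N), add_sub_assoc]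
    refine (abs_add_le _ _).trans ?_
    linarith
  have hMdiv : M / Nat.primeCounting N = ∑ d ∈ range D,
      ((invSet W (d + 1) N).card : ℝ) / Nat.primeCounting N * (1 / ((d + 1 : ℕ) : ℝ)) := by
    rw [hMdef, sum_div]
    exact sum_congr rfl fun d _ => mul_div_right_comm _ _ _
  have hM' : |(∑ p ∈ fullCount W 1 N, expRatio W p) / Nat.primeCounting N -
      M / Nat.primeCounting N| ≤ ε / 2 := by
    rw [← sub_div, abs_div, Nat.abs_cast, div_le_iff₀ hπ]
    exact hM
  rw [hMdiv] at hM'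
  rw [Real.dist_eq, abs_lt] at h2 hpart ⊢
  rw [abs_le] at hM'
  constructor <;> linarith

end FA.FirstInvariant

end
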