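import Fermat.Agent.NearlyCyclic.Main
import Fermat.Agent.ReducedGroups.Exponent

/-!
# The distribution of the first invariant

A good prime has full `m`-torsion iff `m` divides the first invariant `c = #E(𝔽_p) / exponent`, so
the primes with `c = d` number `∑_k μ k #full (d k)`; the levels beyond a bound being negligible,
their share tends to `δ_d = ∑_k μ k / n_{d k}`.
-/

set_option autoImplicit false
set_option linter.style.haveILetI false

noncomputable section

open WeierstrassCurve FA.Frob Finset Filter FA.CyclicRed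
open FA.ArtinHooley (logInt)
open FA.ReducedGroups (FullAt)
open scoped WeierstrassCurve.Affine Classical Topology

namespace FA.FirstInvariant

local notation "μR" k => ((ArithmeticFunction.moebius k : ℤ) : ℝ)

variable (W : WeierstrassCurve ℤ)

/-- The order is `d` times the exponent. -/
def InvEq (d p : ℕ) : Prop :=
  ∃ _ : Fact p.Prime, Nat.card (W.map (Int.castRingHom (ZMod p))).toAffine.Point =
    d * AddMonoid.exponent (W.map (Int.castRingHom (ZMod p))).toAffine.Point

/-- The good odd `p ≤ N` with first invariant `d`. -/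
def invSet (d N : ℕ) : Finset ℕ :=
  (Icc 1 N).filter fun p => p.Prime ∧ (p ∉ badPrimes W ∧ InvEq W d p)

variable {W}

/-- **The first invariant governs every level.** -/
theorem exists_invariant (hΔ : W.Δ ≠ 0) {p : ℕ} (hp : p.Prime) (hbad : p ∉ badPrimes W) :
    ∃ c : ℕ, 0 < c ∧ c < p ∧ (∀ d, InvEq W d p ↔ d = c) ∧
      ∀ m : ℕ, 0 < m → (FullAt W m p ↔ m ∣ c) := by
  haveI := Fact.mk hp
  haveI := ratCurve_isElliptic_of_Δ hΔ
  obtain ⟨h3, hgood⟩ := good_of_not_mem hΔ hp hbad
  haveI : (W.map (Int.castRingHom (ZMod p))).IsElliptic :=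
    FA.PointDiv.reductionMod_isElliptic W hgood
  obtain ⟨c, hce, hcard, h1, -, ⟨φ⟩⟩ :=
    FA.ReducedGroups.exists_equiv_zmod h3 (W.map (Int.castRingHom (ZMod p)))
  have he0 : 0 < AddMonoid.exponent (W.map (Int.castRingHom (ZMod p))).toAffine.Point :=
    Nat.pos_of_ne_zero AddMonoid.exponent_ne_zero_of_finite
  have hc0 : 0 < c := Nat.pos_of_ne_zero fun h => by
    rw [h, zero_mul] at hcard
    exact Nat.card_pos.ne hcard
  haveI : NeZero c := ⟨hc0.ne'⟩
  haveI : NeZero (AddMonoid.exponent (W.map (Int.castRingHom (ZMod p))).toAffine.Point) :=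
    ⟨he0.ne'⟩
  refine ⟨c, hc0, ?_, fun d => ⟨fun ⟨_, h⟩ => ?_, fun h => ⟨Fact.mk hp, by rw [h, hcard]⟩⟩,
    fun m hm => ?_⟩
  · have := Nat.le_of_dvd (by omega) h1
    omega
  · rw [← hcard] at h
    exact (Nat.eq_of_mul_eq_mul_right he0 h).symm
  · rw [← FA.ReducedGroups.natCard_nsmul_eq_sq_iff φ hce hm]
    exact ⟨fun ⟨_, h⟩ => h, fun h => ⟨Fact.mk hp, h⟩⟩

theorem fullCount_eq_empty (hΔ : W.Δ ≠ 0) {m N : ℕ} (hm : N < m) : fullCount W m N = ∅ := by
  refine eq_empty_of_forall_notMem fun p hp => ?_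
  rw [fullCount, mem_filter, mem_Icc] at hp
  obtain ⟨⟨-, hpN⟩, hpp, hbad, hfull⟩ := hp
  obtain ⟨c, hc0, hcp, -, hiff⟩ := exists_invariant hΔ hpp hbad
  have := Nat.le_of_dvd hc0 ((hiff m (by omega)).1 hfull)
  omega

/-- `∑ μ k` over the `k` with `d k ∣ c` picks out `c = d`. -/
theorem sum_moebius_dvd {c d N : ℕ} (hc : 0 < c) (hd : 0 < d) (hcN : c ≤ N) :
    (∑ k ∈ range (N + 1), if d * k ∣ c then (μR k) else 0) = if c = d then 1 else 0 := by
  rw [← sum_filter]
  by_cases hdc : d ∣ c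
  · obtain ⟨t, rfl⟩ := hdc
    have ht : 0 < t := Nat.pos_of_ne_zero fun h => by simp [h] at hc
    have hset : (range (N + 1)).filter (fun k => d * k ∣ d * t) = t.divisors := by
      ext k
      rw [mem_filter, mem_range, Nat.mem_divisors, Nat.mul_dvd_mul_iff_left hd]
      refine ⟨fun h => ⟨h.2, ht.ne'⟩, fun h => ⟨?_, h.1⟩⟩
      have := Nat.le_of_dvd ht h.1
      have := Nat.le_mul_of_pos_left t hd
      omega
    have h1 : ∑ k ∈ t.divisors, ArithmeticFunction.moebius k = if t = 1 then 1 else 0 := by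
      rw [← ArithmeticFunction.coe_zeta_mul_apply, ArithmeticFunction.coe_zeta_mul_moebius,
        ArithmeticFunction.one_apply]
    rw [hset, ← Int.cast_sum, h1]
    by_cases ht1 : t = 1
    · rw [if_pos ht1, if_pos (by rw [ht1, mul_one]), Int.cast_one]
    · rw [if_neg ht1, if_neg fun h => ht1 (Nat.mul_eq_left hd.ne' |>.1 h), Int.cast_zero]
  · rw [if_neg (show ¬ c = d from fun h => hdc (dvd_of_eq h.symm)),
      filter_eq_empty_iff.2 fun k _ h =>
      hdc (dvd_of_mul_right_dvd h), sum_empty]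

/-- **The inversion.** -/
theorem card_invSet_eq (hΔ : W.Δ ≠ 0) {d : ℕ} (hd : 0 < d) (N : ℕ) :
    ((invSet W d N).card : ℝ) =
      ∑ k ∈ range (N + 1), (μR k) * (fullCount W (d * k) N).card := by
  simp only [invSet, fullCount, ← sum_boole, mul_sum]
  rw [sum_comm]
  refine sum_congr rfl fun p hp => ?_
  by_cases h : p.Prime ∧ p ∉ badPrimes W
  · obtain ⟨c, hc0, hcp, hinv, hiff⟩ := exists_invariant hΔ h.1 h.2
    have hpN := (mem_Icc.1 hp).2
    have hl : (p.Prime ∧ (p ∉ badPrimes W ∧ InvEq W d p)) ↔ c = d :=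
      ⟨fun h' => ((hinv d).1 h'.2.2).symm, fun h' => ⟨h.1, h.2, (hinv d).2 h'.symm⟩⟩
    rw [if_congr hl rfl rfl, ← sum_moebius_dvd hc0 hd (show c ≤ N by omega)]
    refine sum_congr rfl fun k _ => ?_
    rcases Nat.eq_zero_or_pos k with rfl | hk
    · simp
    have hr : (p.Prime ∧ (p ∉ badPrimes W ∧ FullAt W (d * k) p)) ↔ d * k ∣ c :=
      ⟨fun h' => (hiff _ (Nat.mul_pos hd hk)).1 h'.2.2,
        fun h' => ⟨h.1, h.2, (hiff _ (Nat.mul_pos hd hk)).2 h'⟩⟩
    rw [if_congr hr rfl rfl, mul_ite, mul_one, mul_zero]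
  · rw [if_neg fun h' => h ⟨h'.1, h'.2.1⟩]
    exact (sum_eq_zero fun k _ => by rw [if_neg fun h' => h ⟨h'.1, h'.2.1⟩, mul_zero]).symm

/-- The levels `d k`, `k` beyond a bound, are among those beyond it. -/
theorem sum_levels_mul_le (hΔ : W.Δ ≠ 0) {d : ℕ} (hd : 0 < d) {D z N : ℕ} (hDz : D < z) :
    ∑ k ∈ Ico z (N + 1), ((fullCount W (d * k) N).card : ℝ) ≤
      ∑ m ∈ Ioc D N, ((fullCount W m N).card : ℝ) := by
  rw [← sum_filter_of_ne (s := Ico z (N + 1)) (p := fun k => d * k ≤ N) fun k _ hk => by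
    by_contra h
    exact hk (by rw [fullCount_eq_empty hΔ (not_le.1 h), card_empty, Nat.cast_zero])]
  refine le_of_eq_of_le (sum_image (f := fun m => ((fullCount W m N).card : ℝ))
    (g := (d * ·)) fun a _ b _ e => Nat.eq_of_mul_eq_mul_left hd e).symm
    (sum_le_sum_of_subset_of_nonneg (fun m hm => ?_) fun _ _ _ => Nat.cast_nonneg _)
  obtain ⟨k, hk, rfl⟩ := mem_image.1 hm
  rw [mem_filter, mem_Ico] at hk
  have := Nat.le_mul_of_pos_left k hd
  exact mem_Ioc.2 ⟨by omega, hk.2⟩

variable (W) [(ratCurve W).IsElliptic]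

/-- The density of the primes with first invariant `d`. -/
def invDensity (d : ℕ) : ℝ := ∑' k : ℕ, (μR k) / degree W (d * k)

variable {W} (hΔ : W.Δ ≠ 0) (hGRH : AllFieldsRH)

include hΔ hGRH

/-- One level. -/
theorem tendsto_level {m : ℕ} (hm : 0 < m) :
    Tendsto (fun N : ℕ => ((fullCount W m N).card : ℝ) * Real.log N / N) atTop
      (𝓝 (1 / degree W m)) := by
  obtain ⟨B, hB, h⟩ := FA.NearlyCyclic.exists_level_count hΔ hGRH
  have h1 : Tendsto (fun N : ℕ => 1 / (degree W m : ℝ) * (logInt N * Real.log N / N)) atTop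
      (𝓝 (1 / degree W m)) := by
    simpa using tendsto_logInt_nat.const_mul (1 / (degree W m : ℝ))
  refine h1.congr_dist (squeeze_zero' (Eventually.of_forall fun N => dist_nonneg) ?_
    (tendsto_error (2 * (B * (1 + Real.log m)))))
  filter_upwards [eventually_ge_atTop 2,
    (Real.tendsto_log_atTop.comp tendsto_natCast_atTop_atTop).eventually_ge_atTop 1] with N hN hL
  simp only [Function.comp_apply] at hL
  rw [dist_comm, Real.dist_eq, show ((fullCount W m N).card : ℝ) * Real.log N / N -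
    1 / (degree W m : ℝ) * (logInt N * Real.log N / N) =
    (((fullCount W m N).card : ℝ) - logInt N / degree W m) * (Real.log N / N) by ring, abs_mul,
    abs_of_nonneg (show 0 ≤ Real.log (N : ℝ) / N by positivity)]
  refine mul_le_mul_of_nonneg_right ((h m hm N hN).trans ?_) (by positivity)
  rw [mul_comm (2 : ℝ), mul_assoc (B * (1 + Real.log m))]
  exact mul_le_mul_of_nonneg_left (error_le hL).1
    (mul_nonneg hB (by linarith [Real.log_natCast_nonneg m]))

theorem summable_invDensity {d : ℕ} (hd : 0 < d) :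
    Summable fun k : ℕ => (μR k) / degree W (d * k) := by
  refine Summable.of_norm_bounded ((FA.NearlyCyclic.summable_inv_degree hΔ hGRH).comp_injective
    (i := fun k : ℕ => d * k) fun a b e => Nat.eq_of_mul_eq_mul_left hd e) fun k => ?_
  rw [Real.norm_eq_abs, abs_div, Nat.abs_cast]
  refine div_le_div_of_nonneg_right ?_ (Nat.cast_nonneg _)
  exact_mod_cast ArithmeticFunction.abs_moebius_le_one

/-- **The primes with first invariant `d`.** -/
theorem tendsto_invSet {d : ℕ} (hd : 0 < d) :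
    Tendsto (fun N : ℕ => ((invSet W d N).card : ℝ) * Real.log N / N) atTop
      (𝓝 (invDensity W d)) := by
  rw [Metric.tendsto_nhds]
  intro ε hε
  obtain ⟨D, hD⟩ := FA.NearlyCyclic.exists_tail_sum_le hΔ hGRH (show (0 : ℝ) < ε / 4 by linarith)
  obtain ⟨z, hz, hzD⟩ := ((Metric.tendsto_nhds.1
    (summable_invDensity hΔ hGRH hd).hasSum.tendsto_sum_nat (ε / 4) (by linarith)).and
    (eventually_gt_atTop D)).exists
  have hfin : Tendsto (fun N : ℕ => ∑ k ∈ range z,
      (μR k) * (((fullCount W (d * k) N).card : ℝ) * Real.log N / N)) atTop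
      (𝓝 (∑ k ∈ range z, (μR k) / degree W (d * k))) := by
    refine tendsto_finsetSum _ fun k _ => ?_
    rcases Nat.eq_zero_or_pos k with rfl | hk
    · simp
    · simpa [div_eq_mul_inv] using (tendsto_level hΔ hGRH (Nat.mul_pos hd hk)).const_mul (μR k)
  filter_upwards [hD, Metric.tendsto_nhds.1 hfin (ε / 4) (by linarith),
    eventually_ge_atTop z] with N h1 h2 hN
  rw [Real.dist_eq, abs_lt] at h2 ⊢
  rw [Real.dist_eq, abs_lt, ← invDensity] at hz
  have htail : |∑ k ∈ Ico z (N + 1), (μR k) * (fullCount W (d * k) N).card| ≤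
      ∑ m ∈ Ioc D N, ((fullCount W m N).card : ℝ) := by
    refine (abs_sum_le_sum_abs _ _).trans ((sum_le_sum fun k _ => ?_).trans
      (sum_levels_mul_le hΔ hd hzD))
    rw [abs_mul, Nat.abs_cast]
    refine mul_le_of_le_one_left (Nat.cast_nonneg _) ?_
    exact_mod_cast ArithmeticFunction.abs_moebius_le_one
  have hsplit : ((invSet W d N).card : ℝ) * Real.log N / N = (∑ k ∈ range z,
      (μR k) * (((fullCount W (d * k) N).card : ℝ) * Real.log N / N)) +
      (∑ k ∈ Ico z (N + 1), (μR k) * (fullCount W (d * k) N).card) * (Real.log N / N) := by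
    rw [card_invSet_eq hΔ hd, ← sum_range_add_sum_Ico _ (show z ≤ N + 1 by omega), mul_div_assoc,
      add_mul, sum_mul]
    simp only [mul_div_assoc, mul_assoc]
  have hl : (0 : ℝ) ≤ Real.log N / N := div_nonneg (Real.log_natCast_nonneg N) (Nat.cast_nonneg N)
  have h3 := mul_le_mul_of_nonneg_right (abs_le.1 htail).1 hl
  have h4 := mul_le_mul_of_nonneg_right (abs_le.1 htail).2 hl
  rw [mul_div_assoc] at h1
  rw [hsplit]
  constructor <;> linarith

theorem invDensity_nonneg {d : ℕ} (hd : 0 < d) : 0 ≤ invDensity W d :=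
  ge_of_tendsto' (tendsto_invSet hΔ hGRH hd) fun N =>
    div_nonneg (mul_nonneg (Nat.cast_nonneg _) (Real.log_natCast_nonneg N)) (Nat.cast_nonneg N)

end FA.FirstInvariant

end
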